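import Fermat.Agent.RT.Mazur.Units
import Fermat.Agent.FF.GenusEq
import Fermat.Agent.Genus.Main

/-!
# The cusp counts at levels `M` and `q M`
-/

set_option autoImplicit false

noncomputable section

namespace Fermat.Agent.RT.Mazur

open ModularCurve AlgebraicCurve Polynomial
open Fermat.Agent.Semistable Fermat.Agent.Arith

theorem cuspCount_prime_mul {q M : ℕ} [NeZero M] (hq : q.Prime) (hqM : ¬ q ∣ M) :
    cuspCount (q * M) = 2 * cuspCount M := by
  classical
  have hM : M ≠ 0 := NeZero.ne M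
  have hco : Nat.Coprime q M := (Nat.Prime.coprime_iff_not_dvd hq).mpr hqM
  have hdvd : ∀ d, d ∣ M → Nat.Coprime q d := fun d hd => hco.coprime_dvd_right hd
  have hsplit : (q * M).divisors = M.divisors ∪ M.divisors.image (q * ·) := by
    ext d
    simp only [Finset.mem_union, Finset.mem_image, Nat.mem_divisors]
    constructor
    · rintro ⟨hd, -⟩
      rcases dvs_cases q M hq hd with h | ⟨e, he, h⟩
      · exact Or.inl ⟨h, hM⟩
      · exact Or.inr ⟨e, ⟨he, hM⟩, h.symm⟩
    · rintro (⟨hd, -⟩ | ⟨e, ⟨he, -⟩, rfl⟩)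
      · exact ⟨dvd_mul_of_dvd_right hd q, mul_ne_zero hq.ne_zero hM⟩
      · exact ⟨mul_dvd_mul_left q he, mul_ne_zero hq.ne_zero hM⟩
  have hdisj : Disjoint M.divisors (M.divisors.image (q * ·)) := by
    rw [Finset.disjoint_left]
    intro d hd hd'
    obtain ⟨e, -, rfl⟩ := Finset.mem_image.mp hd'
    exact hqM ((dvd_mul_right q e).trans (Nat.dvd_of_mem_divisors hd))
  rw [cuspCount, cuspCount, hsplit, Finset.sum_union hdisj,
    Finset.sum_image fun x _ y _ h => Nat.eq_of_mul_eq_mul_left hq.pos h, two_mul]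
  congr 1 <;> refine Finset.sum_congr rfl fun d hd => ?_ <;>
    have hd' := Nat.dvd_of_mem_divisors hd
  · rw [Nat.mul_div_assoc q hd', Nat.Coprime.gcd_mul_left_cancel_right (M / d) (hdvd d hd')]
  · rw [Nat.mul_div_mul_left M d hq.pos,
      Nat.Coprime.gcd_mul_left_cancel d (hdvd (M / d) (Nat.div_dvd_of_dvd hd'))]

/-- The genus identity at levels without elliptic points. -/
theorem genus_identity_of_nu {q M : ℕ} [NeZero M] [hq : Fact q.Prime] (hqM : ¬ q ∣ M)
    (hM : nuTwo M = 0 ∧ nuThree M = 0) (hqM' : nuTwo (q * M) = 0 ∧ nuThree (q * M) = 0) :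
    12 * ((genusFF QBar (FB (q * M)) : ℤ) + 1 - 2 * genusFF QBar (FB M)) =
      ((q : ℤ) - 1) * dedekindPsi M := by
  have hform : ∀ N : ℕ, [NeZero N] → nuTwo N = 0 ∧ nuThree N = 0 →
      (genusFF QBar (FB N) : ℚ) = 1 + (dedekindPsi N : ℚ) / 12 - (cuspCount N : ℚ) / 2 := by
    intro N _ h
    have e : (genus QBar (FB N) : ℚ) = genusFormula N := Genus.genus_eq_genusFormula (N := N)
    rw [FF.genus_eq_genusFF, genusFormula, h.1, h.2] at e
    rw [e]
    simp
  have h1 := hform (q * M) hqM'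
  have h2 := hform M hM
  rw [cuspCount_prime_mul hq.out hqM, Gamma0.dedekindPsi_mul_of_not_dvd hq.out hqM] at h1
  have : (12 : ℚ) * ((genusFF QBar (FB (q * M)) : ℚ) + 1 - 2 * genusFF QBar (FB M)) =
      ((q : ℚ) - 1) * dedekindPsi M := by
    rw [h1, h2]; push_cast; ring
  exact_mod_cast this

end Fermat.Agent.RT.Mazur

end
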