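import Fermat.Agent.Semistable.SeriesLemmas
import Fermat.Agent.Mazur.Eisenstein.Unram

/-!
# The order at `q` of a series with coefficients in the inertia field

A nonzero quotient of integral series whose coefficients are fixed by the inertia group is a power
of `q` times a series with nonzero reduction; the exponent is its order.
-/

set_option autoImplicit false

noncomputable section

namespace Fermat.Agent.RT.Mazur

open Fermat.Agent.Semistable Fermat.Agent.Arith ModularCurve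
open scoped Pointwise

variable (A : ValuationSubring QBar)

/-- All coefficients are fixed by the inertia group at `A`. -/
def InertiaFixed (x : LSer) : Prop :=
  ∀ τ ∈ A.inertiaSubgroupIn ℚ, coeffMap (τ : QBar →+* QBar) x = x

/-- Integral at `A` with nonzero reduction, in the field of quotients of integral series. -/
def IsGUnit (x : LSer) : Prop := ∃ h : x ∈ locS A, redL A ⟨x, h⟩ ≠ 0

variable {A}

theorem isInertial_of_mem {τ : GQ} (hτ : τ ∈ A.inertiaSubgroupIn ℚ) : IsInertial A τ where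
  mem _ ha := map_mem_of_mem_decomposition (mem_inertia_iff_forall_mem.mp hτ).1 ha
  residue_eq a ha := residue_eq_iff.mpr ((mem_inertia_iff_forall_mem.mp hτ).2 a ha)

theorem IsGUnit.ne_zero {x : LSer} (hx : IsGUnit A x) : x ≠ 0 := by
  rintro rfl
  obtain ⟨h, hne⟩ := hx
  exact hne (by rw [show (⟨0, h⟩ : locS A) = 0 from rfl, map_zero])

theorem isGUnit_one : IsGUnit A (1 : LSer) :=
  ⟨one_mem _, by rw [show (⟨1, one_mem _⟩ : locS A) = 1 from rfl, map_one]; exact one_ne_zero⟩

theorem IsGUnit.mul {x y : LSer} (hx : IsGUnit A x) (hy : IsGUnit A y) : IsGUnit A (x * y) := by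
  obtain ⟨hx', hx⟩ := hx
  obtain ⟨hy', hy⟩ := hy
  refine ⟨mul_mem hx' hy', ?_⟩
  rw [show (⟨x * y, mul_mem hx' hy'⟩ : locS A) = ⟨x, hx'⟩ * ⟨y, hy'⟩ from rfl, map_mul]
  exact mul_ne_zero hx hy

theorem IsGUnit.inv {x : LSer} (hx : IsGUnit A x) : IsGUnit A x⁻¹ := by
  obtain ⟨hx', hne⟩ := hx
  obtain ⟨h, e⟩ := inv_mem_locS hx' hne
  exact ⟨h, by rw [e]; exact inv_ne_zero hne⟩

theorem InertiaFixed.mul {x y : LSer} (hx : InertiaFixed A x) (hy : InertiaFixed A y) :
    InertiaFixed A (x * y) := fun τ hτ => by rw [map_mul, hx τ hτ, hy τ hτ]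

theorem InertiaFixed.inv {x : LSer} (hx : InertiaFixed A x) : InertiaFixed A x⁻¹ :=
  fun τ hτ => by rw [map_inv₀, hx τ hτ]

theorem coeff_coeffMap (τ : GQ) (x : LSer) (n : ℤ) :
    (coeffMap (τ : QBar →+* QBar) x).coeff n = τ (x.coeff n) := coeffMap_coeff _ _ _

/-- The conjugates of an integral series under a subgroup form a finite set with fixed product. -/
theorem exists_conjugates (H : Subgroup GQ) {b : LSer} (hb : b ∈ intS A) :
    ∃ O : Finset LSer, b ∈ O ∧ (∀ x ∈ O, ∃ τ ∈ H, coeffMap (τ : QBar →+* QBar) b = x) ∧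
      ∀ τ ∈ H, coeffMap (τ : QBar →+* QBar) (∏ x ∈ O, x) = ∏ x ∈ O, x := by
  classical
  obtain ⟨⟨L, hL, hbL⟩, -⟩ := mem_intS.mp hb
  set O : Set LSer := (fun τ : GQ => coeffMap (τ : QBar →+* QBar) b) '' (H : Set GQ)
  let ev : (L →ₐ[ℚ] QBar) → ℤ → QBar := fun φ n => φ ⟨b.coeff n, hbL n⟩
  have hO : O.Finite := by
    refine Set.Finite.of_finite_image ((Set.finite_range ev).subset ?_)
      (f := fun x : LSer => x.coeff) (fun x _ y _ h => HahnSeries.ext h)
    rintro _ ⟨_, ⟨τ, -, rfl⟩, rfl⟩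
    exact ⟨(τ : QBar ≃ₐ[ℚ] QBar).toAlgHom.comp L.val, funext fun n => (coeff_coeffMap τ b n).symm⟩
  refine ⟨hO.toFinset, hO.mem_toFinset.mpr ⟨1, one_mem _, by
    show coeffMap (((1 : GQ) : QBar →+* QBar)) b = b
    rw [show ((1 : GQ) : QBar →+* QBar) = RingHom.id QBar from RingHom.ext fun _ => rfl,
      coeffMap_id]⟩,
    fun x hx => hO.mem_toFinset.mp hx, fun τ hτ => ?_⟩
  rw [map_prod]
  have hinj := (coeffMap (τ : QBar →+* QBar)).injective
  have himg : hO.toFinset.image (coeffMap (τ : QBar →+* QBar)) = hO.toFinset := by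
    refine Finset.eq_of_subset_of_card_le (fun y hy => ?_)
      (Finset.card_image_of_injective _ hinj).ge
    obtain ⟨x, hx, rfl⟩ := Finset.mem_image.mp hy
    obtain ⟨τ', hτ', rfl⟩ := hO.mem_toFinset.mp hx
    refine hO.mem_toFinset.mpr ⟨τ * τ', mul_mem hτ hτ', ?_⟩
    rw [coeffMap_coeffMap]
    rfl
  conv_rhs => rw [← himg]
  rw [Finset.prod_image fun x _ y _ h => hinj h]

/-- The product of the finitely many inertia conjugates of an integral series is fixed by inertia
and is a multiple of it. -/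
theorem exists_fixed_multiple {b : LSer} (hb : b ∈ intS A) (hb0 : b ≠ 0) :
    ∃ c ∈ intS A, c ≠ 0 ∧ InertiaFixed A (b * c) := by
  classical
  obtain ⟨O, hbO, hO, hfix⟩ := exists_conjugates (A := A) (A.inertiaSubgroupIn ℚ) hb
  have hmem : ∀ x ∈ O.erase b, x ∈ intS A ∧ x ≠ 0 := fun x hx => by
    obtain ⟨τ, hτ, rfl⟩ := hO x (Finset.mem_of_mem_erase hx)
    exact ⟨(isInertial_of_mem hτ).coeffMap_mem hb, (map_ne_zero _).mpr hb0⟩
  refine ⟨∏ x ∈ O.erase b, x, prod_mem fun x hx => (hmem x hx).1,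
    Finset.prod_ne_zero_iff.mpr fun x hx => (hmem x hx).2, ?_⟩
  rw [Finset.mul_prod_erase _ (fun x => x) hbO]
  exact hfix

variable {q : ℕ}

/-- An element of the inertia field is a power of `q` times a unit. -/
theorem exists_zpow_mul_unit (hA : A.LiesOverPrime q) (hq : q.Prime) {a : QBar} (ha : a ≠ 0)
    (hfix : ∀ τ ∈ A.inertiaSubgroupIn ℚ, τ a = a) :
    ∃ k : ℤ, (q : QBar) ^ (-k) * a ∈ A ∧ (q : QBar) ^ (-k) * a ∉ A.nonunits := by
  obtain ⟨k, hk⟩ := Mazur.Eisenstein.exists_int_ordAt hA hq ha hfix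
  have hq0 : (q : QBar) ^ (-k) ≠ 0 := zpow_ne_zero _ (Nat.cast_ne_zero.mpr hq.ne_zero)
  have hu := (Mazur.Eisenstein.ordAt_eq_zero_iff hA hq (mul_ne_zero hq0 ha)).mp (by
    rw [Mazur.Eisenstein.ordAt_mul hA hq hq0 ha, Mazur.Eisenstein.ordAt_prime_zpow hA hq, hk]
    push_cast; ring)
  exact ⟨k, (A.valuation_le_one_iff _).mp hu.le, fun h => by
    rw [ValuationSubring.mem_nonunits_iff, hu] at h; exact lt_irrefl _ h⟩

theorem isGUnit_algebraMap {a : QBar} (ha : a ∈ A) (hu : a ∉ A.nonunits) :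
    IsGUnit A (algebraMap QBar LSer a) :=
  ⟨algebraMap_mem_locS ha, by
    rw [redL_algebraMap ha]
    exact fun h => hu ((residue_eq_zero_iff ha).mp ((map_eq_zero _).mp h))⟩

/-- Two scalings of the same series with nonzero reductions differ by a unit. -/
theorem valuation_eq_of_isGUnit {x : LSer} {a b : QBar} (ha : IsGUnit A (algebraMap QBar LSer a * x))
    (hb : IsGUnit A (algebraMap QBar LSer b * x)) : A.valuation a = A.valuation b := by
  have ha0 : a ≠ 0 := fun h => ha.ne_zero (by rw [h, map_zero, zero_mul])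
  have hb0 : b ≠ 0 := fun h => hb.ne_zero (by rw [h, map_zero, zero_mul])
  have hx0 : x ≠ 0 := right_ne_zero_of_mul ha.ne_zero
  have hu : IsGUnit A (algebraMap QBar LSer (a / b)) := by
    have h := ha.mul hb.inv
    rwa [← div_eq_mul_inv, mul_div_mul_right _ _ hx0, ← map_div₀] at h
  have hle : ∀ {c : QBar}, c ≠ 0 → IsGUnit A (algebraMap QBar LSer c) → A.valuation c ≤ 1 := by
    intro c hc hc'
    obtain ⟨h, hne⟩ := hc'
    by_contra hgt
    have hinv : c⁻¹ ∈ A.nonunits := by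
      rw [ValuationSubring.mem_nonunits_iff, map_inv₀]
      exact inv_lt_one_of_one_lt₀ (not_le.mp hgt)
    obtain ⟨hm, e⟩ := redL_const_mul (mem_of_mem_nonunits hinv) h
    rw [(residue_eq_zero_iff _).mpr hinv, map_zero, zero_mul,
      redL_congr hm (one_mem (locS A)) (by rw [← map_mul, inv_mul_cancel₀ hc, map_one]),
      show (⟨1, one_mem _⟩ : locS A) = 1 from rfl, map_one] at e
    exact one_ne_zero e
  have hab : a / b ≠ 0 := div_ne_zero ha0 hb0
  have h1 := hle hab hu
  have h2 := hle (inv_ne_zero hab) (by rw [map_inv₀]; exact hu.inv)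
  rw [map_inv₀, inv_le_one₀ (zero_lt_iff.mpr ((Valuation.ne_zero_iff _).mpr hab))] at h2
  have h3 : A.valuation (a / b) = 1 := le_antisymm h1 h2
  rwa [map_div₀, div_eq_one_iff_eq ((Valuation.ne_zero_iff _).mpr hb0)] at h3

end Fermat.Agent.RT.Mazur

end
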