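import Fermat.Agent.FF.FixedRep
import Fermat.Agent.JacTorsion.DescentEquiv
import Fermat.Agent.Mazur.Eisenstein.Cusps
import Fermat.Agent.RT.Mazur.Scale

/-!
# Rational Kummer functions of fixed torsion classes

A torsion class fixed by a set of semilinear automorphisms which fix a place has a Kummer function
fixed by all of them.
-/

set_option autoImplicit false

noncomputable section

open AlgebraicCurve Fermat.Agent.FF

namespace Fermat.Agent.RT.Mazur

section Generic

variable {K F : Type*} [Field K] [Field F] [Algebra K F] [IsFunctionField K F] [IsAlgClosed K]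
variable (S : Set (SemilinearAut K F))

variable {m : ℕ} [NeZero m]

/-- A fixed torsion class has a fixed Kummer function, normalised by `lead`. -/
theorem exists_fixed_kummer {P₀ : Place K F} (hP₀ : ∀ g ∈ S, g • P₀ = P₀) (lead : F → K)
    (hlead_mul : ∀ (c : K) (y : F), lead (algebraMap K F c * y) = c * lead y)
    (hlead0 : ∀ y : F, y ≠ 0 → lead y ≠ 0)
    (hlead_smul : ∀ g ∈ S, ∀ y : F, lead (g • y) = SemilinearAut.baseAut g (lead y))
    {x : Pic0.torsion K F m} (hx : ∀ g ∈ S, g • (x : Pic0 K F) = x) :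
    ∃ f : JacTorsion.divGrp K F m, JacTorsion.toTorsion (Additive.ofMul f) = x ∧
      lead ((f : Fˣ) : F) = 1 ∧ ∀ g ∈ S, g • ((f : Fˣ) : F) = ((f : Fˣ) : F) := by
  obtain ⟨D, hDx, hfix⟩ := FF.exists_fixed_divisor hP₀ hx
  have hm := x.2
  rw [Pic0.mem_torsion, ← hDx] at hm
  have hm' := (QuotientAddGroup.eq_zero_iff ((m : ℤ) • D)).mp hm
  rw [AddSubgroup.mem_addSubgroupOf, AddSubgroup.coe_zsmul] at hm'
  obtain ⟨f, hf0, hl, hff, hord⟩ := FF.exists_fixed_fun S lead hlead_mul hlead0 hlead_smul hm'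
    fun g hg => by rw [smul_comm, hfix g hg]
  have hordf : ∀ v : Place K F, v.ord f = (m : ℤ) * (D : Divisor K F) v := fun v => by
    rw [← hord v, Finsupp.smul_apply, smul_eq_mul]
  have hmem : Units.mk0 f hf0 ∈ JacTorsion.divGrp K F m := fun v => ⟨_, hordf v⟩
  refine ⟨⟨_, hmem⟩, Subtype.ext ?_, hl, hff⟩
  rw [← hDx]
  refine congrArg Pic0.mk (Subtype.ext (JacTorsion.eq_of_smul_eq (m := m) ?_))
  show (m : ℤ) • JacTorsion.divQuot ⟨_, hmem⟩ = _
  rw [JacTorsion.smul_divQuot]
  exact Finsupp.ext fun v => by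
    rw [JacTorsion.div_apply, Finsupp.smul_apply, smul_eq_mul, ← hordf v]; rfl

end Generic

section Modular

open ModularCurve Fermat.Agent.Semistable Fermat.Agent.Arith

variable {N : ℕ} [NeZero N]

/-- An inertia-fixed torsion class has a Kummer function with inertia-fixed coefficients and
leading coefficient one. -/
theorem exists_rational_kummer {m : ℕ} [NeZero m] (A : ValuationSubring QBar)
    (x : Pic0.torsion QBar (FB N) m)
    (hx : ∀ τ ∈ A.inertiaSubgroupIn ℚ, τ • (x : JZero N) = x) :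
    ∃ f : JacTorsion.divGrp QBar (FB N) m, JacTorsion.toTorsion (Additive.ofMul f) = x ∧
      (((f : (FB N)ˣ) : FB N) : LSer).leadingCoeff = 1 ∧
      InertiaFixed A (((f : (FB N)ˣ) : FB N) : LSer) := by
  obtain ⟨f, hfx, hl, hfix⟩ := exists_fixed_kummer
    (S := arithmeticGalois (modularFunctionFieldFull N) '' (A.inertiaSubgroupIn ℚ : Set GQ))
    (P₀ := Mazur.Eisenstein.placeInf N)
    (by rintro _ ⟨τ, -, rfl⟩; exact Mazur.Eisenstein.galois_smul_placeInf N τ)
    (fun y : FB N => (y : LSer).leadingCoeff)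
    (fun c y => by
      show ((algebraMap QBar LSer c) * (y : LSer)).leadingCoeff = _
      rw [HahnSeries.leadingCoeff_mul, algebraMap_laurentSeries_eq_single,
        HahnSeries.leadingCoeff_of_single])
    (fun y hy => HahnSeries.leadingCoeff_ne_zero.mpr fun h => hy (Subtype.ext h))
    (by rintro _ ⟨τ, -, rfl⟩ y; exact JacTorsion.coeffMap_leadingCoeff (τ : QBar →+* QBar) _)
    (x := x) (by rintro _ ⟨τ, hτ, rfl⟩; exact hx τ hτ)
  exact ⟨f, hfx, hl, fun τ hτ =>
    congrArg Subtype.val (hfix _ ⟨τ, hτ, rfl⟩)⟩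

end Modular

end Fermat.Agent.RT.Mazur

end
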